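import Fermat.Agent.S59.WallP3.Spec
import Fermat.Agent.Ribet.H644.CuspPurityQGood

/-!
# S59 moonshot, cell (A), leaf CUSP at `p = 3`, READY levels: CLOSED  (helper944)

`cusp3 : WallP3.Cusp3Statement`, from helper644's `H644.cuspPurityAux` (CUSP at every
auxiliary-good level, any torsion order) at `m = q = p = 3`, `2 ∣ M'`.
-/

set_option autoImplicit false

namespace Fermat.Agent.S59.WallP3

open Fermat.Agent.Ribet.H884

/-- **CUSP at one READY level, `p` odd** (`p = 3 → 2 ∣ M'`). -/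
theorem cuspPurityAt_ready (p M' : ℕ) [NeZero M'] [NeZero p] [NeZero (p * M')] (hp : p.Prime)
    (hp2 : p ≠ 2) (hpM : ¬ p ∣ M') (hr : p = 3 → 2 ∣ M')
    (A : ValuationSubring Fermat.Agent.S24.Kbar) (hA : A.LiesOverPrime p) :
    CuspPurityAt p M' A :=
  fun g y hK hNG =>
    Fermat.Agent.Ribet.H644.cuspPurityAux p p M' hp hpM ⟨hr, fun h => absurd h hp2⟩ hp.pos A hA
      g y hK hNG

/-- **CUSP at `p = 3`, READY levels: CLOSED.** -/
theorem cusp3 : Cusp3Statement :=
  fun p M' _ _ _ hp h3 h2 hpM A hA =>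
    cuspPurityAt_ready p M' hp (by omega) hpM (fun _ => h2) A hA

end Fermat.Agent.S59.WallP3
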