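import Fermat.Agent.Ribet.H109.S39Final2
import Fermat.Agent.Ribet.H558.S2Five
import Fermat.Agent.Ribet.H399.CuspGen
import Fermat.Agent.Ribet.H912.TameFixed
import Fermat.Agent.Ribet.H132.WildOfFrame
import Fermat.Agent.Ribet.H712.WildFrame

/-!
# S59 moonshot, cell (A): frozen S39 restricted to `p ≥ 5` — CLOSED  (helper944)

`s39Ge5 : H109.Peu.S39Ge5Statement`, the SAME term as `Fermat.Agent.S44.result` (row 38, on
main): `H109.Peu.S39Ge5_of_open` applied to (S2) for `p ≥ 5` and EIS.
-/

set_option autoImplicit false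

namespace Fermat.Agent.S59.WallP3

open Fermat.Agent.Ribet

/-- **Frozen S39 for `p ≥ 5`: CLOSED.** -/
theorem s39Ge5 : H109.Peu.S39Ge5Statement :=
  H109.Peu.S39Ge5_of_open H558.s2Five
    (H884.eisSlope_of_frontier5
      (H704.CoreOut.coreOutNE_of_tame_wild (H967.Tame.tame_of_fixed H912.tameFixed)
        (H132.wild_of_frame H712.Frame.wildFrame))
      H399.cuspPurity5Leaf)

end Fermat.Agent.S59.WallP3
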