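import Fermat.Agent.S59.WallP3.UnitEis3
import Fermat.Agent.Ribet.H912.TameGen
import Fermat.Agent.Ribet.H967.TameReduceGen
import Fermat.Agent.S59.Unit3.H461.Unit3Pair

/-!
# S59 moonshot, cell (A), leaf TAME at `p = 3`, READY levels: CLOSED  (wiring, helper944)

`tame3 : Tame3Statement u3`, from
* helper912's generic TAME core `H912.tameCoreGen` (any unit pair of exponent prime to `m`),
* helper461's unit pair at `p = 3` of exponent `8` (`H461.unitPairAt_three`, `H461.unit3_bar`),
* helper967's cocycle trick for an arbitrary split-invariant slope predicate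
  (`H967.TameGen.tameQ_of_fixedQ`).
-/

set_option autoImplicit false
set_option synthInstance.maxHeartbeats 400000
set_option maxHeartbeats 1000000
set_option linter.unusedSectionVars false

noncomputable section

namespace Fermat.Agent.S59.WallP3

open ModularCurve HahnSeries
open Fermat.Agent.S24 Fermat.Agent.Ribet.H884 Fermat.Agent.Ribet.H944.Wall
open Fermat.Agent.Ribet.Spec
open Fermat.Agent.S59.Unit3.H461

/-- `SlopePropU` is helper967's `SlopePropQ` for the property "the expansion is `u`". -/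
theorem slopePropU_iff_slopePropQ (p M' : ℕ) [NeZero p] [NeZero (p * M')]
    (A : ValuationSubring Kbar) (u : LaurentSeries Kbar) (x : JZero (p * M')) :
    SlopePropU p M' A u x ↔
      Fermat.Agent.Ribet.H967.TameGen.SlopePropQ p M' A
        (fun D => (D : LaurentSeries Kbar) = u) x := Iff.rfl

/-- **The inertia-fixed TAME core at `p = 3`, READY levels**: a `3`-torsion class fixed by the
inertia group at `A` has `SlopePropU` for the unit `u3` (exponent `n = 8`). -/
theorem fixedCore3 (M' : ℕ) [NeZero M'] [NeZero (3 * M')] (h2 : 2 ∣ M') (hpM : ¬ 3 ∣ M')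
    (A : ValuationSubring Kbar) (hA : A.LiesOverPrime 3)
    (x : JZero (3 * M')) (hx : 3 • x = 0)
    (hfix : ∀ σ ∈ A.inertiaSubgroupIn ℚ, σ • x = x) :
    SlopePropU 3 M' A u3 x := by
  have h6 : 6 ∣ 3 * M' := by
    obtain ⟨k, rfl⟩ := h2
    exact ⟨k, by ring⟩
  obtain ⟨DQ, hDQe, hDQ0, hDQ⟩ := unit3_bar (3 * M') h6
  have hU : Fermat.Agent.Ribet.H912.UnitPairAt A M' 3 8 v3L :=
    fun E w hS hE V W hV hW p₁ p₂ hc₁ hc₂ =>
      unitPairAt_three A M' h2 E w hS hE V W hV hW p₁ p₂ hc₁ hc₂
  obtain ⟨f, G, a, b, hK, hrel, r₁, r₂, h1, h2', h3, h4⟩ :=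
    Fermat.Agent.Ribet.H912.tameCoreGen 3 M' 3 Nat.prime_three hpM
      ⟨fun _ => h2, fun h => absurd h (by decide)⟩ (by norm_num) 8 (by norm_num) (by decide)
      A hA v3L hU DQ hDQ0 hDQ x hx hfix
  exact ⟨f, DQ, G, 8, a, b, hK, hDQe, hDQ0, by decide, hrel, ⟨r₁, r₂, h1, h2', h3, h4⟩⟩

/-- **TAME at `p = 3`, READY levels: CLOSED.** -/
theorem tame3 : Tame3Statement u3 := by
  intro p M' _ _ _ hp h3 h2 hpM A hA S a _ x t hx hex ht het hχ hsh _ htame
  subst h3
  exact Fermat.Agent.Ribet.H967.TameGen.tameQ_of_fixedQ hp (by decide) hpM A hA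
    (fun D => (D : LaurentSeries Kbar) = u3) S a
    (fun x' hx' _ hfix => fixedCore3 M' h2 hpM A hA x' hx'.1 hfix)
    x t hx hex ht het hχ hsh htame

end Fermat.Agent.S59.WallP3

end
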