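import Fermat.Agent.S59.WallP3.UnitEis3
import Fermat.Agent.Ribet.H712.Wild3

/-!
# S59 moonshot, cell (A), leaf WILD at `p = 3`, READY levels: CLOSED  (wiring, helper944)

`wild3 : Wild3Statement u3`, from helper712's `H712.Frame.wild3` (generic WILD frame for odd `p`
with the UNIT-3 pair of helper461).
-/

set_option autoImplicit false

namespace Fermat.Agent.S59.WallP3

open Fermat.Agent.Ribet.H884

/-- **WILD at `p = 3`, READY levels: CLOSED.** -/
theorem wild3 : Wild3Statement u3 := by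
  intro p M' _ _ _ hp h3 h2 hpM A hA S a hNE x t hx hex ht het hχ hsh hpeu σ₀ hσ₀ hσ₀1 hσ₀x
  subst h3
  obtain ⟨f, D, G, n, a', b, hf, hD, hD0, hn, hG, hNG⟩ :=
    Fermat.Agent.Ribet.H712.Frame.wild3 M' h2 hpM A hA S a hNE x t hx hex ht het hχ hsh hpeu
      σ₀ hσ₀ hσ₀1 hσ₀x
  exact ⟨f, D, G, n, a', b, hf, eq_u3_of_mul_eq_one hD, hD0, hn, hG, hNG⟩

end Fermat.Agent.S59.WallP3
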