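import Fermat.Agent.S59.WallP3.Glue
import Fermat.Agent.S59.WallP3.Cusp3
import Fermat.Agent.S59.WallP3.Tame3
import Fermat.Agent.S59.WallP3.Wild3
import Fermat.Agent.S59.WallP3.Plug5
import Fermat.Agent.S59.H294.ResUnram

/-!
# S59 moonshot, CELL (A) CLOSED: `LOW.MazurW35Statement → LOW.S39W35Statement`
  (cell architect helper944)

* `s39Ready3 : S39Ready3Statement` — frozen S39 at `p = 3` at every READY level
  (`2 ∣ M'`, `3 ∤ M'`), UNCONDITIONAL: the wall at `p = 3` with the UNIT-3 unit
  `v = (η(τ)η(2τ)/(η(3τ)η(6τ)))⁸` (helper461), TAME (helper912 + helper967), WILD (helper712),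
  CUSP (helper644), UNIT-EIS (helper67 calculus), (S1) helper884, (S2) `S33.H558.s2Ready`,
  (S3) I3 at good levels (helper764/940/537/584/751), I2 `H376.dlogOut`.
* `cellA : LOW.MazurW35Statement → LOW.S39W35Statement` — the deliverable of cell (A):
  `p = 5` by the S44 chain, `p = 3` by the READY wall, padding with `2` and Mazur's principle at
  `(p, q) = (3, 2)` for the return.
-/

set_option autoImplicit false

namespace Fermat.Agent.S59.WallP3

open Fermat.Agent.S59.Arch.LOW

/-- **Frozen S39 at `p = 3`, READY levels: CLOSED, unconditional.** -/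
theorem s39Ready3 : S39Ready3Statement :=
  s39Ready3_of_leaves u3 unitEis3 tame3 wild3 cusp3

/-- **CELL (A)**: the removal of `p ∈ {3, 5}` from Mazur's principle (cell (B1); used at
`(p, q) = (3, 2)` only, at levels `2 M'` with `M'` prime to `6`). -/
theorem cellA (hMz : MazurW35Statement) : S39W35Statement :=
  s39W35_of_ready s39Ge5 s39Ready3 hMz Fermat.Agent.S59.H294.resUnram

end Fermat.Agent.S59.WallP3
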