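import Fermat.Agent.S59.WallP3.Spec
import Fermat.Agent.S59.Arch.LOW
import Fermat.Agent.S59.H96.EigenChar
import Fermat.Agent.S59.H127.BridgeE
import Fermat.Agent.Ribet.H823.EmbedW

/-!
# S59 moonshot, cell (A): the target `S39W35Statement` from the READY wall at `p = 3`
  (cell architect helper944)

    s39W35_of_ready : S39Ge5Statement → S39Ready3Statement → MazurW35Statement →
                      ResUnramStatement → S39W35Statement

* `p = 5`: `H109.Peu.S39Ge5Statement` (closed by the S44 chain, `H109.Peu.S39Ge5_of_open`).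
* `p = 3`, `2 ∣ M`: the READY wall `WallP3.S39Ready3Statement`.
* `p = 3`, `2 ∤ M`: PAD with `2` (`S59.H96.exists_stabilized`), READY wall at the level `6 M'`,
  UNPAD by Mazur's principle at `(p, q) = (3, 2)` at the level `2 M'` (`3 ∤ 2 M'`): `E[3]` is
  unramified at `2` by `ResUnram` at the level `3 M'`, and `2` is not a pivot (`3 ∤ 2 - 1`).

WARNING for cell (B1): `MazurW35Statement` at `(p, q) = (3, 2)` is an INPUT here, so its proof
must not use `S39W35Statement` at `p = 3` (circle).
-/

set_option autoImplicit false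
set_option linter.style.haveILetI false

open scoped WeierstrassCurve.Affine

namespace Fermat.Agent.S59.WallP3

open Fermat.Agent.S59.Arch Fermat.Agent.S59.Arch.LOW Fermat.Agent.S59.H934

/-- **PAD**: residual modularity of level `M` gives residual modularity of level `M * r` for a
prime `r ∤ M` (`r`-stabilisation). -/
theorem isResiduallyModularOfLevel_mul_prime (W : WeierstrassCurve ℤ) (p M r : ℕ)
    (hr : r.Prime) (hrM : ¬ r ∣ M) (h : W.IsResiduallyModularOfLevel p M) :
    W.IsResiduallyModularOfLevel p (M * r) := by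
  obtain ⟨f, 𝔪, hf, hmax, hpm, hc⟩ := h
  obtain ⟨g, hg, hgl⟩ := Fermat.Agent.S59.H96.exists_stabilized hf hr hrM
  refine ⟨g, 𝔪, hg, hmax, hpm, fun ℓ hℓ hgood hℓM hℓp => ?_⟩
  have hℓM' : ¬ ℓ ∣ M := fun h => hℓM (h.mul_right r)
  have hℓr : ℓ ≠ r := fun h => hℓM (h ▸ dvd_mul_left _ _)
  obtain ⟨a, ha, ham⟩ := hc ℓ hℓ hgood hℓM' hℓp
  exact ⟨a, by rw [ha, hgl ℓ hℓ hℓr], ham⟩

/-- **The target of cell (A) from the READY wall at `p = 3`.** -/
theorem s39W35_of_ready (h5 : Fermat.Agent.Ribet.H109.Peu.S39Ge5Statement)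
    (h3 : S39Ready3Statement) (hMz : MazurW35Statement) (hU : ResUnramStatement) :
    S39W35Statement := by
  intro p _ hp W hΔ hW hirr hfin M hM hpM hmod
  have hpp : p.Prime := Fact.out
  have hp2M : ¬ p ^ 2 ∣ M := by
    intro h2
    rw [pow_two] at h2
    exact hpp.not_isUnit (hM p h2)
  rcases hp with h3' | h5'
  · -- `p = 3`
    obtain ⟨M', rfl⟩ := hpM
    have hM'pos : 0 < M' := by
      rcases Nat.eq_zero_or_pos M' with h0 | h0
      · subst h0
        simp at hM
      · exact h0
    have hpM' : ¬ p ∣ M' := by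
      rintro ⟨k, rfl⟩
      exact hp2M ⟨k, by ring⟩
    rw [Nat.mul_div_cancel_left M' hpp.pos]
    by_cases h2 : 2 ∣ M'
    · exact h3 p M' hpp h3' hM'pos h2 hpM' W hΔ (hW p hpp) hirr hfin hmod
    · -- pad with `2`
      have h2pM : ¬ 2 ∣ p * M' := by
        intro h
        rcases (Nat.Prime.dvd_mul Nat.prime_two).mp h with h' | h'
        · have := (Nat.prime_dvd_prime_iff_eq Nat.prime_two hpp).mp h'
          omega
        · exact h2 h'
      have hpad : W.IsResiduallyModularOfLevel p (p * (2 * M')) := by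
        have := isResiduallyModularOfLevel_mul_prime W p (p * M') 2 Nat.prime_two h2pM hmod
        have e : p * M' * 2 = p * (2 * M') := by ring
        rwa [e] at this
      have hp2M' : ¬ p ∣ 2 * M' := by
        intro h
        rcases (Nat.Prime.dvd_mul hpp).mp h with h' | h'
        · have := (Nat.prime_dvd_prime_iff_eq hpp Nat.prime_two).mp h'
          omega
        · exact hpM' h'
      have hlev : W.IsResiduallyModularOfLevel p (2 * M') :=
        h3 p (2 * M') hpp h3' (by omega) (dvd_mul_right 2 M') hp2M' W hΔ (hW p hpp) hirr hfin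
          hpad
      -- unpad: Mazur's principle at `q = 2`
      haveI : ((W.map (Int.castRingHom ℚ))⁄(AlgebraicClosure ℚ)).IsElliptic :=
        Fermat.Agent.Ribet.H823.h823_isEllipticW_bar hΔ
      have hcard := Fermat.Agent.S59.H127.card_torsion_prime (W.map (Int.castRingHom ℚ)) p
      have hker := Fermat.Agent.Ribet.H823.h823_rhoW_finiteLevel hΔ hpp
      have h2p : (2 : ℕ) ≠ p := by omega
      have hsq2 : Squarefree (2 * M') := by
        have hM'sq : Squarefree M' := hM.squarefree_of_dvd (dvd_mul_left M' p)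
        rw [Nat.squarefree_mul_iff]
        exact ⟨(Nat.coprime_primes Nat.prime_two hpp).mpr h2p |>.symm.symm |> fun _ =>
          (Nat.Prime.coprime_iff_not_dvd Nat.prime_two).mpr h2, Nat.prime_two.squarefree,
          hM'sq⟩
      have hunr := hU p (Or.inl h3') W hΔ hW hirr hcard hker (p * M') hM hmod 2 Nat.prime_two
        h2p h2pM
      have hnp : ¬ IsPivotAt p ((W.map (Int.castRingHom ℚ)).residualGaloisRepOf p hcard hker)
          2 := by
        rintro ⟨hd, -⟩
        have : p ∣ 1 := hd
        exact hpp.one_lt.ne' (Nat.dvd_one.mp this)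
      have hres := hMz p (Or.inl h3') W hΔ hW hirr hcard hker (2 * M') 2 hsq2 Nat.prime_two
        h2p (dvd_mul_right 2 M') hunr hnp hlev
      rwa [Nat.mul_div_cancel_left M' (by norm_num : 0 < 2)] at hres
  · -- `p = 5`
    exact h5 W hΔ hpp (by omega) (hW p hpp) hirr hfin (Nat.pos_of_ne_zero hM.ne_zero) hpM hp2M
      hmod

/-- **Cell (A) from its leaves**: the closed `p ≥ 5` wall, the four leaves of the READY wall at
`p = 3` for a unit `u`, Mazur's principle (cell (B1)) and `ResUnram`. -/
theorem s39W35_of_leaves (h5 : Fermat.Agent.Ribet.H109.Peu.S39Ge5Statement)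
    (u : LaurentSeries Fermat.Agent.S24.Kbar) (hUE : UnitEis3Statement u)
    (hT : Tame3Statement u) (hWi : Wild3Statement u) (hC : Cusp3Statement)
    (hMz : MazurW35Statement) (hU : ResUnramStatement) : S39W35Statement :=
  s39W35_of_ready h5 (s39Ready3_of_leaves u hUE hT hWi hC) hMz hU

end Fermat.Agent.S59.WallP3
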