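import Fermat.Agent.Ribet.H884.EisAt
import Fermat.Agent.Ribet.H109.S39Final
import Fermat.Agent.Ribet.H940.R3P5
import Fermat.Agent.Ribet.H376.DlogOut
import Fermat.Agent.S33.H558.S2ReadyFinal

/-!
# S59 moonshot, cell (A): WALL-p at `p = 3`, READY levels (`2 ∣ M'`) — FROZEN leaves + PROVED glue
  (cell architect helper944)

Target of the cell: `S59.Arch.LOW.S39W35Statement` (glue in `WallP3/Glue.lean`).  The wall for
`p ≥ 5` is closed (S44 chain, `H109.Peu.S39Ge5_of_open`).  At `p = 3` the chain of row 38 uses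
`5 ≤ p` ESSENTIALLY in one place only: the modular unit `Δ(t^p)/Δ(t)` has slope `12 ≡ 0 (mod 3)`.
Everything else is available at READY levels (`p = 3 → 2 ∣ M'`: model, (S1), (S2), I3).

This file is generic in the unit: `u : LaurentSeries ℚ̄` is ANY `t`-series which
* is an Eisenstein eigenfunction for the formal Hecke operators (`UnitEisFor`), and
* is the expansion of the unit used by CORE-OUT (`SlopePropU`).

## Frozen leaves (pointwise at `(p, M', A)`, unit `u`)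
| leaf | Prop | content |
|---|---|---|
| UNIT-EIS | `UnitEisFor N u` | `kronNorm ℓ u = c · u ^ (ℓ + 1)` for the primes `ℓ ∤ N` |
| TAME | `TameUAt p M' A u` | `H704.CoreOut.TameStatement` at `(p, M', A)`, conclusion `SlopePropU` |
| WILD | `WildUAt p M' A u` | `H704.CoreOut.WildStatement` at `(p, M', A)`, conclusion `SlopePropU` |
| CUSP | `H884.CuspPurityAt p M' A` | (already pointwise) |

## Proved here
* `isEisMod_of_slopePropU`, `mem_finPart_of_slopePropU` : the W-EIS assembly for ANY unit;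
* `coreOutU_of_tame_wild`, `s4For_of_leavesU` : (S4) at `(p, M', A)` from the four leaves;
* `s3For_good` : (S3) at every GOOD level (`p = 3`, `2 ∣ M'` included), UNCONDITIONAL;
* `targets_of_s4For`, `s39At_of_s4For` : frozen S39 at the level `p M'` from (S4) alone
  (READY levels, `p` odd); `s39At_of_leavesU`;
* the statements for the cell: `Tame3Statement u`, `Wild3Statement u`, `Cusp3Statement`,
  `UnitEis3Statement u`, `S4Ready3Statement`, `S39Ready3Statement` and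
  **`s39Ready3_of_leaves : UnitEis3 u → Tame3 u → Wild3 u → Cusp3 → S39Ready3Statement`**.
-/

set_option autoImplicit false
set_option synthInstance.maxHeartbeats 400000
set_option maxHeartbeats 1000000
set_option linter.unusedSectionVars false
set_option linter.style.haveILetI false

noncomputable section

namespace Fermat.Agent.S59.WallP3

open AlgebraicCurve ModularCurve HahnSeries
open Fermat.Agent.S24 Fermat.Agent.A2.H708 Fermat.Agent.A2.H528 Fermat.Agent.A2.H129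
open Fermat.Agent.Ribet Fermat.Agent.Ribet.Spec Fermat.Agent.Ribet.H944.Wall
open Fermat.Agent.Ribet.H884
open Fermat.Agent.S37.H400

/-! ## Vocabulary -/

/-- **UNIT-EIS for `u`**: `u` is an Eisenstein eigenfunction of the formal Hecke operators
`kronNorm ℓ`, `ℓ ∤ N`. -/
def UnitEisFor (N : ℕ) (u : LaurentSeries Kbar) : Prop :=
  ∀ (ℓ : Nat.Primes) [NeZero (ℓ : ℕ)], ¬ (ℓ : ℕ) ∣ N →
    ∃ c : Kbar, c ≠ 0 ∧ kronNorm (ℓ : ℕ) u = cst c * u ^ ((ℓ : ℕ) + 1)

theorem UnitEisFor.mono {N N' : ℕ} {u : LaurentSeries Kbar} (h : UnitEisFor N u)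
    (hNN' : N ∣ N') : UnitEisFor N' u :=
  fun ℓ _ hℓ => h ℓ (fun hd => hℓ (hd.trans hNN'))

/-- The slope vector of `x` is a multiple of the slope vector of the unit with `t`-expansion `u`
(`H884.SlopeProp` with `Δ(t^p)/Δ(t)` replaced by `u`). -/
def SlopePropU (p M' : ℕ) [NeZero p] [NeZero (p * M')] (A : ValuationSubring Kbar)
    (u : LaurentSeries Kbar) (x : JZero (p * M')) : Prop :=
  ∃ (f D G : FF (p * M')) (n a b : ℕ), IsKummerGen (p * M') p f x ∧
    (D : LaurentSeries Kbar) = u ∧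
    D ≠ 0 ∧ ¬ p ∣ n ∧ G * D ^ b = f ^ n * D ^ a ∧ NodeGen p M' A G

/-- `H884.SlopeProp` is `SlopePropU` for the unit `Δ(t^p)/Δ(t)`. -/
theorem slopePropU_of_slopeProp {p M' : ℕ} [NeZero p] [NeZero (p * M')]
    {A : ValuationSubring Kbar} {x : JZero (p * M')} (h : SlopeProp p M' A x) :
    SlopePropU p M' A (Fermat.Agent.S28.unitL Kbar p) x := by
  obtain ⟨f, D, G, n, a, b, hf, hD, hD0, hn, hG, hNG⟩ := h
  exact ⟨f, D, G, n, a, b, hf, hD, hD0, hn, hG, hNG⟩

/-! ## The W-EIS assembly for an arbitrary unit -/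

/-- **The W-EIS assembly at one `(p, M', A)` for the unit `u`** (general leaves). -/
theorem isEisMod_of_slopePropU' (hHF : HeckeFunStatement) (hHN : HeckeNodeGenStatement)
    (hRE : RedExistsStatement) (hRU : RedUniqueStatement) (hRF : RedFieldStatement)
    (p M' : ℕ) [NeZero M'] [NeZero p] [NeZero (p * M')] (hp : p.Prime) (hpM : ¬ p ∣ M')
    (A : ValuationSubring Kbar) (hA : A.LiesOverPrime p) (hCP : CuspPurityAt p M' A)
    (u : LaurentSeries Kbar) (hU : UnitEisFor (p * M') u)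
    (x : JZero (p * M'))
    (hx : SlopePropU p M' A u x) : IsEisMod p M' A (p * M').primeFactors x := by
  intro ℓ hℓ
  have : NeZero (ℓ : ℕ) := ⟨ℓ.2.ne_zero⟩
  have hℓN : ¬ (ℓ : ℕ) ∣ p * M' := fun h =>
    hℓ (Nat.mem_primeFactors.mpr ⟨ℓ.2, h, NeZero.ne _⟩)
  obtain ⟨f, D, G, n, a, b, hf, hD, hD0, hn, hG, hNG⟩ := hx
  obtain ⟨Tf, hTf, hTfK⟩ := hHF (p * M') ℓ hℓN f
  obtain ⟨TG, hTG, -⟩ := hHF (p * M') ℓ hℓN G
  obtain ⟨c, hc, hUD⟩ := hU ℓ hℓN
  have hf0 : f ≠ 0 := hf.1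
  have hG0 : G ≠ 0 := hNG.ne_zero
  set C : FF (p * M') := algebraMap Kbar (FF (p * M')) c with hC
  have hC0 : C ≠ 0 := by simpa [hC] using hc
  set E : FF (p * M') := D ^ ((ℓ : ℕ) + 1) with hE
  have hE0 : E ≠ 0 := pow_ne_zero _ hD0
  have h2 : TG * (C * E) ^ b = Tf ^ n * (C * E) ^ a := by
    apply Subtype.ext
    have e1 : ((C * E : FF (p * M')) : LaurentSeries Kbar) =
        kronNorm (ℓ : ℕ) (D : LaurentSeries Kbar) := by
      have hCE : ((C * E : FF (p * M')) : LaurentSeries Kbar) =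
          cst c * (D : LaurentSeries Kbar) ^ ((ℓ : ℕ) + 1) := rfl
      rw [hCE, hD, hUD]
    have e2 : ((TG * (C * E) ^ b : FF (p * M')) : LaurentSeries Kbar) =
        kronNorm (ℓ : ℕ) ((G * D ^ b : FF (p * M')) : LaurentSeries Kbar) := by
      have : ((G * D ^ b : FF (p * M')) : LaurentSeries Kbar) =
          (G : LaurentSeries Kbar) * (D : LaurentSeries Kbar) ^ b := rfl
      rw [this, kronNorm_mul, kronNorm_pow, ← hTG, ← e1]
      rfl
    have e3 : ((Tf ^ n * (C * E) ^ a : FF (p * M')) : LaurentSeries Kbar) =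
        kronNorm (ℓ : ℕ) ((f ^ n * D ^ a : FF (p * M')) : LaurentSeries Kbar) := by
      have : ((f ^ n * D ^ a : FF (p * M')) : LaurentSeries Kbar) =
          (f : LaurentSeries Kbar) ^ n * (D : LaurentSeries Kbar) ^ a := rfl
      rw [this, kronNorm_mul, kronNorm_pow, kronNorm_pow, ← hTf, ← e1]
      rfl
    rw [e2, e3, hG]
  have h3 : G ^ ((ℓ : ℕ) + 1) * E ^ b = f ^ (n * ((ℓ : ℕ) + 1)) * E ^ a := by
    have h3' : (G * D ^ b) ^ ((ℓ : ℕ) + 1) = (f ^ n * D ^ a) ^ ((ℓ : ℕ) + 1) := by rw [hG]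
    calc G ^ ((ℓ : ℕ) + 1) * E ^ b = (G * D ^ b) ^ ((ℓ : ℕ) + 1) := by rw [hE]; ring
      _ = (f ^ n * D ^ a) ^ ((ℓ : ℕ) + 1) := h3'
      _ = f ^ (n * ((ℓ : ℕ) + 1)) * E ^ a := by rw [hE]; ring
  set g : FF (p * M') := Tf * (f ^ ((ℓ : ℕ) + 1))⁻¹ with hg
  have hgK : IsKummerGen (p * M') p g
      (heckeOperatorBar (p * M') ℓ x - ((ℓ : ℕ) + 1) • x) := by
    have := (hTfK p x hf).mul ((hf.pow ((ℓ : ℕ) + 1)).inv)
    rwa [← sub_eq_add_neg] at this
  have hg0 : g ≠ 0 := hgK.1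
  have h4 : Tf ^ n * C ^ a * G ^ ((ℓ : ℕ) + 1) = C ^ b * TG * f ^ (n * ((ℓ : ℕ) + 1)) := by
    have hEE : E ^ a * E ^ b ≠ 0 := mul_ne_zero (pow_ne_zero _ hE0) (pow_ne_zero _ hE0)
    apply mul_right_cancel₀ hEE
    rw [mul_pow, mul_pow] at h2
    linear_combination (-(f ^ (n * ((ℓ : ℕ) + 1)) * E ^ a)) * h2 + (Tf ^ n * C ^ a * E ^ a) * h3
  have h5 : g ^ n = algebraMap Kbar (FF (p * M')) (c ^ b * (c ^ a)⁻¹) *
      (TG * (G ^ ((ℓ : ℕ) + 1))⁻¹) := by
    have hCa : C ^ a ≠ 0 := pow_ne_zero _ hC0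
    have hGl : G ^ ((ℓ : ℕ) + 1) ≠ 0 := pow_ne_zero _ hG0
    have hfl : f ^ ((ℓ : ℕ) + 1) ≠ 0 := pow_ne_zero _ hf0
    have hcc : algebraMap Kbar (FF (p * M')) (c ^ b * (c ^ a)⁻¹) = C ^ b * (C ^ a)⁻¹ := by
      rw [map_mul, map_inv₀, map_pow, map_pow]
    rw [hcc, hg, mul_pow, inv_pow, ← pow_mul, mul_comm ((ℓ : ℕ) + 1) n]
    have hfn : f ^ (n * ((ℓ : ℕ) + 1)) ≠ 0 := pow_ne_zero _ hf0
    field_simp
    linear_combination h4
  have hcb : c ^ b * (c ^ a)⁻¹ ≠ 0 := mul_ne_zero (pow_ne_zero _ hc) (inv_ne_zero (pow_ne_zero _ hc))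
  have hNGn : NodeGen p M' A (g ^ n) := by
    rw [h5]
    exact ((hHN p M' hp hpM A hA ℓ hℓN G TG hTG hNG).mul (hNG.pow _).inv).const_mul hcb
  have hNGg : NodeGen p M' A g := NodeGen.of_pow hRE hRU hRF hp hpM hA hn hg0 hNGn
  exact AddSubgroup.subset_closure ⟨g, hgK, hCP g _ hgK hNGg⟩

/-- **The W-EIS assembly at one `(p, M', A)` for the unit `u`**, all closed leaves plugged in. -/
theorem isEisMod_of_slopePropU
    (p M' : ℕ) [NeZero M'] [NeZero p] [NeZero (p * M')] (hp : p.Prime) (hpM : ¬ p ∣ M')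
    (A : ValuationSubring Kbar) (hA : A.LiesOverPrime p) (hCP : CuspPurityAt p M' A)
    (u : LaurentSeries Kbar) (hU : UnitEisFor (p * M') u)
    (x : JZero (p * M')) (hx : SlopePropU p M' A u x) :
    IsEisMod p M' A (p * M').primeFactors x :=
  isEisMod_of_slopePropU' H398.heckeFun H699.heckeNodeGen H997.redExists
    H997.redUnique H997.redField p M' hp hpM A hA hCP u hU x hx

/-- `SlopePropU x` + CUSP + UNIT-EIS at `(p, M', A)` + non-Eisenstein eigen ⟹ `x ∈ finPart`. -/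
theorem mem_finPart_of_slopePropU
    (p M' : ℕ) [NeZero M'] [NeZero p] [NeZero (p * M')] (hp : p.Prime) (hpM : ¬ p ∣ M')
    (A : ValuationSubring Kbar) (hA : A.LiesOverPrime p) (hCP : CuspPurityAt p M' A)
    (u : LaurentSeries Kbar) (hU : UnitEisFor (p * M') u)
    (S : Finset ℕ) (a : ℕ → ℤ) (hNE : NonEisAway p a)
    (x : JZero (p * M')) (hpx : p • x = 0) (heig : EigenAt (p * M') S a x)
    (hx : SlopePropU p M' A u x) : x ∈ finPart p M' A :=
  mem_finPart_of_eis p M' hp A S _ a hNE x hpx heig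
    (isEisMod_of_slopePropU p M' hp hpM A hA hCP u hU x hx)

/-! ## The pointwise leaves TAME / WILD / CORE-OUT for the unit `u` -/

section Leaves

variable (p M' : ℕ) [NeZero M'] [NeZero p] [NeZero (p * M')] (A : ValuationSubring Kbar)
  (u : LaurentSeries Kbar)

/-- **CORE-OUT (with NE) at `(p, M', A)` for the unit `u`.** -/
def CoreOutUAt : Prop :=
  ∀ (S : Finset ℕ) (a : ℕ → ℤ), NonEisAway p a → ∀ x t : JZero (p * M'),
    IsNewTors p M' x → EigenAt (p * M') S a x →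
    IsNewTors p M' t → EigenAt (p * M') S a t →
    (∀ σ ∈ A.inertiaSubgroupIn ℚ, ∀ c : ℕ, CycloAt p σ c → σ • t = c • t) →
    (∀ σ ∈ A.inertiaSubgroupIn ℚ, ∃ n : ℕ, σ • x = x + n • t) →
    (∀ σ : GQ, PeuFixes A p σ → σ • x = x) →
    SlopePropU p M' A u x

/-- **TAME at `(p, M', A)` for the unit `u`**: CORE-OUT for the classes fixed by
`I₁ = {σ ∈ I : σ = 1 on μ_p}`. -/
def TameUAt : Prop :=
  ∀ (S : Finset ℕ) (a : ℕ → ℤ), NonEisAway p a → ∀ x t : JZero (p * M'),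
    IsNewTors p M' x → EigenAt (p * M') S a x →
    IsNewTors p M' t → EigenAt (p * M') S a t →
    (∀ σ ∈ A.inertiaSubgroupIn ℚ, ∀ c : ℕ, CycloAt p σ c → σ • t = c • t) →
    (∀ σ ∈ A.inertiaSubgroupIn ℚ, ∃ n : ℕ, σ • x = x + n • t) →
    (∀ σ : GQ, PeuFixes A p σ → σ • x = x) →
    (∀ σ ∈ A.inertiaSubgroupIn ℚ, CycloAt p σ 1 → σ • x = x) →
    SlopePropU p M' A u x

/-- **WILD at `(p, M', A)` for the unit `u`**: CORE-OUT for the classes moved by some
`σ₀ ∈ I₁`. -/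
def WildUAt : Prop :=
  ∀ (S : Finset ℕ) (a : ℕ → ℤ), NonEisAway p a → ∀ x t : JZero (p * M'),
    IsNewTors p M' x → EigenAt (p * M') S a x →
    IsNewTors p M' t → EigenAt (p * M') S a t →
    (∀ σ ∈ A.inertiaSubgroupIn ℚ, ∀ c : ℕ, CycloAt p σ c → σ • t = c • t) →
    (∀ σ ∈ A.inertiaSubgroupIn ℚ, ∃ n : ℕ, σ • x = x + n • t) →
    (∀ σ : GQ, PeuFixes A p σ → σ • x = x) →
    ∀ σ₀ ∈ A.inertiaSubgroupIn ℚ, CycloAt p σ₀ 1 → σ₀ • x ≠ x →
    SlopePropU p M' A u x

variable {p M' A u}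

/-- CORE-OUT from TAME and WILD. -/
theorem coreOutU_of_tame_wild (hT : TameUAt p M' A u) (hW : WildUAt p M' A u) :
    CoreOutUAt p M' A u := by
  intro S a hNE x t hx hex ht het hχ hsh hpeu
  by_cases h : ∀ σ ∈ A.inertiaSubgroupIn ℚ, CycloAt p σ 1 → σ • x = x
  · exact hT S a hNE x t hx hex ht het hχ hsh hpeu h
  · push Not at h
    obtain ⟨σ₀, hσ₀, hσ₀1, hσ₀x⟩ := h
    exact hW S a hNE x t hx hex ht het hχ hsh hpeu σ₀ hσ₀ hσ₀1 hσ₀x

end Leaves

/-- **(S4) at `(p, M', A)` from CORE-OUT, CUSP and UNIT-EIS for the unit `u`.** -/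
theorem s4For_of_coreOutU
    (p M' : ℕ) [NeZero M'] [NeZero p] [NeZero (p * M')] (hp : p.Prime) (hpM : ¬ p ∣ M')
    (A : ValuationSubring Kbar) (hA : A.LiesOverPrime p)
    (u : LaurentSeries Kbar) (hU : UnitEisFor (p * M') u)
    (hCO : CoreOutUAt p M' A u) (hCP : CuspPurityAt p M' A) :
    S4For p M' A (finPart p M' A) := by
  intro S a hNE x t hx hex ht het hχ hsh hpeu
  exact mem_finPart_of_slopePropU p M' hp hpM A hA hCP u hU S a hNE x hx.1 hex
    (hCO S a hNE x t hx hex ht het hχ hsh hpeu)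

/-- **(S4) at `(p, M', A)` from the four leaves UNIT-EIS, TAME, WILD, CUSP.** -/
theorem s4For_of_leavesU
    (p M' : ℕ) [NeZero M'] [NeZero p] [NeZero (p * M')] (hp : p.Prime) (hpM : ¬ p ∣ M')
    (A : ValuationSubring Kbar) (hA : A.LiesOverPrime p)
    (u : LaurentSeries Kbar) (hU : UnitEisFor (p * M') u)
    (hT : TameUAt p M' A u) (hW : WildUAt p M' A u) (hCP : CuspPurityAt p M' A) :
    S4For p M' A (finPart p M' A) :=
  s4For_of_coreOutU p M' hp hpM A hA u hU (coreOutU_of_tame_wild hT hW) hCP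

/-! ## (S3) at the good levels: unconditional -/

open Fermat.Agent.Ribet.H764.I3 in
/-- **I3 at the residue field, every GOOD level** (`p ≥ 5`, or `p = 3` and `2 ∣ M`, or `p = 2`
and `3 ∣ M`). -/
theorem r3pAt_good (p M : ℕ) [NeZero M] (hp : p.Prime) (hpM : ¬ p ∣ M)
    (hg : Fermat.Agent.S37.Core.GoodLevel M p)
    (A : ValuationSubring (AlgebraicClosure ℚ)) (hA : A.LiesOverPrime p) :
    R3PAt p M (kRes A) := by
  haveI := charP_kRes A hp hA
  haveI := isAlgClosed_kRes A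
  have hI : IncAt M (kRes A) := by
    intro g hg'
    obtain ⟨f, c, hfc, hgc⟩ := hg'
    have hG : IsHoloSeries (AlgebraicClosure ℚ) M
        (PowerSeries.mk fun n => ((c n : ℤ) : AlgebraicClosure ℚ)) :=
      Fermat.Agent.Ribet.H940.incAn_proved M _ ⟨f, c, hfc, fun n => PowerSeries.coeff_mk _ _⟩
    have hg'' : g = PowerSeries.mk fun n => ((c n : ℤ) : kRes A) := by
      ext n
      rw [hgc n, PowerSeries.coeff_mk]
    rw [hg'']
    exact Fermat.Agent.Ribet.H940.incRed p M hp hpM hg A hA c hG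
  exact r3pAt_of_geo hp hI (Fermat.Agent.Ribet.H537.dimAt_kRes p M hp hpM hg A hA)
    (Fermat.Agent.Ribet.H751.logHol p M hp hpM (kRes A))

/-- **(S3) at `(p, M', A)`, every GOOD level, `p` odd: UNCONDITIONAL.** -/
theorem s3For_good (p M' : ℕ) [NeZero M'] [NeZero p] [NeZero (p * M')] (hp : p.Prime)
    (hp2 : p ≠ 2) (hpM : ¬ p ∣ M') (hg : Fermat.Agent.S37.Core.GoodLevel M' p)
    (A : ValuationSubring (AlgebraicClosure ℚ)) (hA : A.LiesOverPrime p) :
    S3For p M' (finPart p M' A) (splitPart p M' A) := by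
  intro S a x hx hxS hnew heig
  obtain ⟨S', h, g, hSS', h0, hdiv, hdlog, hg0, heigs⟩ :=
    Fermat.Agent.Ribet.H376.dlogOut p M' hp hp2 hpM A hA S a x hx hxS hnew heig
  exact Fermat.Agent.Ribet.H764.I3.lowered_mono hSS'
    (r3pAt_good p M' hp hpM hg A hA S' a h h0 hdiv g hdlog hg0 heigs)

/-! ## The four targets and frozen S39 at one READY level -/

/-- **The four targets at `(p, M', A)` from (S4) alone** (`p` odd, READY level). -/
theorem targets_of_s4For (p M' : ℕ) [NeZero M'] [NeZero p] [NeZero (p * M')] (hp : p.Prime)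
    (hp2 : p ≠ 2) (hpM : ¬ p ∣ M') (hr : p = 3 → 2 ∣ M')
    (A : ValuationSubring (AlgebraicClosure ℚ)) (hA : A.LiesOverPrime p)
    (h4 : S4For p M' A (finPart p M' A)) :
    ∃ 𝓕 𝒮 : AddSubgroup (JZero (p * M')),
      S1For p M' A 𝒮 ∧ S2For p M' A 𝒮 ∧ S3For p M' 𝓕 𝒮 ∧ S4For p M' A 𝓕 := by
  have hg : Fermat.Agent.S37.Core.GoodLevel M' p := by
    by_cases h3 : p = 3
    · exact Or.inr (Or.inl ⟨h3, hr h3⟩)
    · refine Or.inl ?_
      have := hp.two_le
      rcases Nat.lt_or_ge p 5 with h | h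
      · interval_cases p
        · exact absurd rfl hp2
        · exact absurd rfl h3
        · exact absurd hp (by decide)
      · exact h
  exact ⟨finPart p M' A, splitPart p M' A, H884.s1 p M' hp hpM A hA,
    Fermat.Agent.S33.H558.s2Ready p M' hp hp2 hpM hr A hA,
    s3For_good p M' hp hp2 hpM hg A hA, h4⟩

/-- **Frozen S39 at the level `p M'` (READY, `p` odd) from (S4) alone.** -/
theorem s39At_of_s4For (p M' : ℕ) [NeZero M'] [NeZero p] [NeZero (p * M')] (hp : p.Prime)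
    (hp2 : p ≠ 2) (hpM : ¬ p ∣ M') (hr : p = 3 → 2 ∣ M')
    (h4 : ∀ A : ValuationSubring (AlgebraicClosure ℚ), A.LiesOverPrime p →
      S4For p M' A (finPart p M' A)) :
    Fermat.Agent.Ribet.H109.Peu.S39At p M' :=
  Fermat.Agent.Ribet.H109.Peu.s39At_of_targetsFor hp hp2
    (fun A hA => targets_of_s4For p M' hp hp2 hpM hr A hA (h4 A hA))

/-! ## The statements of the cell at `p = 3` -/

/-- **UNIT-EIS at `p = 3`**: `u` is an Eisenstein eigenfunction for `ℓ ∤ 6`. -/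
def UnitEis3Statement (u : LaurentSeries Kbar) : Prop := UnitEisFor 6 u

/-- **TAME at `p = 3`, READY levels, unit `u`.** -/
def Tame3Statement (u : LaurentSeries Kbar) : Prop :=
  ∀ (p M' : ℕ) [NeZero M'] [NeZero p] [NeZero (p * M')], p.Prime → p = 3 → 2 ∣ M' → ¬ p ∣ M' →
    ∀ A : ValuationSubring Kbar, A.LiesOverPrime p → TameUAt p M' A u

/-- **WILD at `p = 3`, READY levels, unit `u`.** -/
def Wild3Statement (u : LaurentSeries Kbar) : Prop :=
  ∀ (p M' : ℕ) [NeZero M'] [NeZero p] [NeZero (p * M')], p.Prime → p = 3 → 2 ∣ M' → ¬ p ∣ M' →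
    ∀ A : ValuationSubring Kbar, A.LiesOverPrime p → WildUAt p M' A u

/-- **CUSP at `p = 3`, READY levels.** -/
def Cusp3Statement : Prop :=
  ∀ (p M' : ℕ) [NeZero M'] [NeZero p] [NeZero (p * M')], p.Prime → p = 3 → 2 ∣ M' → ¬ p ∣ M' →
    ∀ A : ValuationSubring Kbar, A.LiesOverPrime p → CuspPurityAt p M' A

/-- **(S4) at `p = 3`, READY levels.** -/
def S4Ready3Statement : Prop :=
  ∀ (p M' : ℕ) [NeZero M'] [NeZero p] [NeZero (p * M')], p.Prime → p = 3 → 2 ∣ M' → ¬ p ∣ M' →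
    ∀ A : ValuationSubring Kbar, A.LiesOverPrime p → S4For p M' A (finPart p M' A)

/-- **Frozen S39 at `p = 3`, READY levels**: level `3 M'` ⟹ level `M'`, `2 ∣ M'`, `3 ∤ M'`. -/
def S39Ready3Statement : Prop :=
  ∀ (p M' : ℕ), p.Prime → p = 3 → 0 < M' → 2 ∣ M' → ¬ p ∣ M' →
    Fermat.Agent.Ribet.H109.Peu.S39At p M'

/-- (S4) at `p = 3`, READY levels, from the four leaves. -/
theorem s4Ready3_of_leaves (u : LaurentSeries Kbar) (hU : UnitEis3Statement u)
    (hT : Tame3Statement u) (hW : Wild3Statement u) (hC : Cusp3Statement) :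
    S4Ready3Statement := by
  intro p M' _ _ _ hp h3 h2 hpM A hA
  have h6 : 6 ∣ p * M' := by
    obtain ⟨k, rfl⟩ := h2
    subst h3
    exact ⟨k, by ring⟩
  exact s4For_of_leavesU p M' hp hpM A hA u (UnitEisFor.mono hU h6)
    (hT p M' hp h3 h2 hpM A hA) (hW p M' hp h3 h2 hpM A hA) (hC p M' hp h3 h2 hpM A hA)

/-- Frozen S39 at `p = 3`, READY levels, from (S4). -/
theorem s39Ready3_of_s4 (h4 : S4Ready3Statement) : S39Ready3Statement := by
  intro p M' hp h3 hM' h2 hpM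
  haveI : NeZero M' := ⟨hM'.ne'⟩
  haveI : NeZero p := ⟨hp.ne_zero⟩
  haveI : NeZero (p * M') := ⟨(Nat.mul_pos hp.pos hM').ne'⟩
  have hp2 : p ≠ 2 := by omega
  exact s39At_of_s4For p M' hp hp2 hpM (fun _ => h2) (fun A hA => h4 p M' hp h3 h2 hpM A hA)

/-- **Frozen S39 at `p = 3`, READY levels, from the four leaves of the cell.** -/
theorem s39Ready3_of_leaves (u : LaurentSeries Kbar) (hU : UnitEis3Statement u)
    (hT : Tame3Statement u) (hW : Wild3Statement u) (hC : Cusp3Statement) :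
    S39Ready3Statement :=
  s39Ready3_of_s4 (s4Ready3_of_leaves u hU hT hW hC)

end Fermat.Agent.S59.WallP3

end
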