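import Fermat.Agent.S59.WallP3.Spec
import Fermat.Agent.S59.Unit3.H461.Unit3Exp
import Fermat.Agent.Ribet.H67.UnitEis

/-!
# S59 moonshot, cell (A), leaf UNIT-EIS at `p = 3`: CLOSED  (helper944)

The unit of the cell: `u3 := v⁻¹` over `ℚ̄`, `v = (η(τ)η(2τ)/(η(3τ)η(6τ)))⁸` (helper461,
`S59.Unit3.H461.v3L`, `v3InvL`).  `unitEis3 : UnitEis3Statement u3` by the `IsNormEig` calculus of
helper67 (`Ribet/H67/UnitEisLaurent.lean`): every eta-quotient is an eigenfunction of the formal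
Hecke norm `kronNorm ℓ`, `ℓ` prime to the level.
-/

set_option autoImplicit false
set_option linter.unusedSectionVars false

noncomputable section

namespace Fermat.Agent.S59.WallP3

open ModularCurve HahnSeries
open Fermat.Agent.S24 Fermat.Agent.A2.H708
open Fermat.Agent.S37.H400 Fermat.Agent.Ribet.H67 Fermat.Agent.S59.Unit3.H461

/-- **The unit of cell (A)**: the `t`-expansion over `ℚ̄` of `v⁻¹`,
`v = (η(τ)η(2τ)/(η(3τ)η(6τ)))⁸`. -/
def u3 : LaurentSeries Kbar := coeffMap (Int.castRingHom Kbar) v3InvL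

theorem u3_mul_v3 : u3 * coeffMap (Int.castRingHom Kbar) v3L = 1 := by
  rw [u3, ← map_mul, mul_comm, v3L_mul_v3InvL, map_one]

/-- A series `D` with `D · v = 1` is `u3`. -/
theorem eq_u3_of_mul_eq_one {D : LaurentSeries Kbar}
    (h : D * coeffMap (Int.castRingHom Kbar) v3L = 1) : D = u3 := by
  calc D = D * (coeffMap (Int.castRingHom Kbar) v3L * u3) := by
        rw [mul_comm _ u3, u3_mul_v3, mul_one]
    _ = u3 := by rw [← mul_assoc, h, one_mul]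

section Eig

variable {L : Type*} [Field L] {ℓ : ℕ} [NeZero ℓ]

theorem coeffMap_e8L : coeffMap (Int.castRingHom L) e8L =
    (HahnSeries.ofPowerSeries ℤ L (etaK L)) ^ 8 := by
  rw [e8L, coeffMap_ofPowerSeries, map_pow, map_pow]
  rfl

theorem isNormEig_e8L (hℓ : ℓ.Prime) {ζ : L} (hζ : IsPrimitiveRoot ζ ℓ) :
    IsNormEig ℓ (coeffMap (Int.castRingHom L) e8L) := by
  rw [coeffMap_e8L]
  refine IsNormEig.pow ⟨1, one_ne_zero, ?_⟩ 8
  rw [map_one, one_mul]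
  exact kronNorm_ofPS_of_identity hζ _ (etaK_norm_identity hℓ hζ)

theorem isNormEig_qExpand_e8L (hℓ : ℓ.Prime) {ζ : L} (hζ : IsPrimitiveRoot ζ ℓ) (d : ℕ)
    [NeZero d] (hd : ¬ ℓ ∣ d) :
    IsNormEig ℓ (coeffMap (Int.castRingHom L) (qExpand ℤ d e8L)) := by
  rw [coeffMap_qExpand_h400, coeffMap_e8L, map_pow, ← ofPS_expand d (NeZero.ne d)]
  refine IsNormEig.pow ⟨1, one_ne_zero, ?_⟩ 8
  rw [map_one, one_mul]
  exact kronNorm_ofPS_of_identity hζ _ (etaK_expand_norm_identity hℓ hζ d (NeZero.ne d) hd)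

theorem isNormEig_e8InvL (hℓ : ℓ.Prime) {ζ : L} (hζ : IsPrimitiveRoot ζ ℓ) :
    IsNormEig ℓ (coeffMap (Int.castRingHom L) e8InvL) :=
  (isNormEig_e8L hℓ hζ).of_mul_eq_one (by rw [← map_mul, e8L_mul_e8InvL, map_one])

theorem isNormEig_qExpand_e8InvL (hℓ : ℓ.Prime) {ζ : L} (hζ : IsPrimitiveRoot ζ ℓ) (d : ℕ)
    [NeZero d] (hd : ¬ ℓ ∣ d) :
    IsNormEig ℓ (coeffMap (Int.castRingHom L) (qExpand ℤ d e8InvL)) :=
  (isNormEig_qExpand_e8L hℓ hζ d hd).of_mul_eq_one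
    (by rw [← map_mul, ← map_mul, e8L_mul_e8InvL, map_one, map_one])

theorem isNormEig_single_two (hℓ : ℓ.Prime) {ζ : L} (hζ : IsPrimitiveRoot ζ ℓ) :
    IsNormEig ℓ (coeffMap (Int.castRingHom L) (HahnSeries.single (2 : ℤ) (1 : ℤ))) := by
  have hε : (∏ b : Fin ℓ, ζ ^ (b : ℕ)) ≠ 0 :=
    Finset.prod_ne_zero_iff.2 fun b _ => pow_ne_zero _ (hζ.ne_zero hℓ.ne_zero)
  have hq : IsNormEig ℓ (Fermat.Agent.S37.H340.qq : LaurentSeries L) := ⟨_, hε, kronNorm_qq hζ⟩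
  have e : coeffMap (Int.castRingHom L) (HahnSeries.single (2 : ℤ) (1 : ℤ)) =
      (Fermat.Agent.S37.H340.qq : LaurentSeries L) ^ 2 := by
    rw [coeffMap_single, Fermat.Agent.S37.H340.qq_pow, map_one]
    rfl
  rw [e]
  exact hq.pow 2

/-- **`v⁻¹` is an eigenfunction of the formal Hecke norm `kronNorm ℓ`, `ℓ ∤ 6`.** -/
theorem isNormEig_v3InvL (hℓ : ℓ.Prime) (h6 : ¬ ℓ ∣ 6) {ζ : L} (hζ : IsPrimitiveRoot ζ ℓ) :
    IsNormEig ℓ (coeffMap (Int.castRingHom L) v3InvL) := by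
  have h2 : ¬ ℓ ∣ 2 := fun h => h6 (h.trans (by norm_num))
  have h3 : ¬ ℓ ∣ 3 := fun h => h6 (h.trans (by norm_num))
  rw [v3InvL, map_mul, map_mul, map_mul, map_mul]
  exact ((((isNormEig_single_two hℓ hζ).mul (isNormEig_e8InvL hℓ hζ)).mul
    (isNormEig_qExpand_e8InvL hℓ hζ 2 h2)).mul (isNormEig_qExpand_e8L hℓ hζ 3 h3)).mul
    (isNormEig_qExpand_e8L hℓ hζ 6 h6)

end Eig

/-- **UNIT-EIS at `p = 3`: CLOSED.** -/
theorem unitEis3 : UnitEis3Statement u3 := by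
  intro ℓ _ hℓ6
  have : NeZero (((ℓ : ℕ) : ℕ) : ℚ) := ⟨by exact_mod_cast ℓ.2.ne_zero⟩
  obtain ⟨ζ, hζ⟩ := HasEnoughRootsOfUnity.exists_primitiveRoot Kbar (ℓ : ℕ)
  obtain ⟨c, hc, h⟩ := isNormEig_v3InvL (L := Kbar) ℓ.2 hℓ6 hζ
  exact ⟨c, hc, by rw [u3, h, cst_eq_C]⟩

end Fermat.Agent.S59.WallP3

end
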